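import Mathlib
import Fermat.Agent.H6.DS.Interfaces

/-!
# P-DS / DS-2F2 (helper4): action of `Γ₀(ℓ)` on the functions `φ_x = eisOne ℓ (0, x) / (2πi)`

From `EisOneTransformStatement`: for `γ ∈ Γ₀(ℓ)` with lower right entry `d` and `x : ZMod ℓ`,
`x ≠ 0`:  `eisOne ℓ (0, val x) (γ z) = j(γ, z) * eisOne ℓ (0, val (x d)) z`.
-/

set_option autoImplicit false

namespace Fermat.Agent.H4.DS

open Fermat.Agent.H6.DS UpperHalfPlane CongruenceSubgroup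
open scoped Real MatrixGroups ModularForm

variable {ℓ : ℕ} [Fact ℓ.Prime]

theorem vecMul_zero_cons (a : ℤ) (γ : SL(2, ℤ)) :
    Matrix.vecMul ![0, a] (γ : Matrix (Fin 2) (Fin 2) ℤ) = ![a * γ 1 0, a * γ 1 1] := by
  ext i
  fin_cases i <;> simp [Matrix.vecMul, dotProduct, Fin.sum_univ_two]

/-- The lower right entry of `γ ∈ Γ₀(ℓ)` is a unit modulo `ℓ`. -/
theorem lowerRight_ne_zero {γ : SL(2, ℤ)} (hγ : γ ∈ Gamma0 ℓ) :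
    (((γ 1 1 : ℤ)) : ZMod ℓ) ≠ 0 := by
  intro h
  have hc : ((γ 1 0 : ℤ) : ZMod ℓ) = 0 := Gamma0_mem.mp hγ
  have hdet : (γ : Matrix (Fin 2) (Fin 2) ℤ).det = 1 := γ.det_coe
  rw [Matrix.det_fin_two] at hdet
  have h1 : (((γ 0 0 * γ 1 1 - γ 0 1 * γ 1 0 : ℤ)) : ZMod ℓ) = 1 := by
    have := congrArg (Int.cast : ℤ → ZMod ℓ) hdet
    simpa using this
  push_cast at h1
  rw [h, hc, mul_zero, mul_zero, sub_zero] at h1
  exact zero_ne_one h1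

theorem nonzeroMod_zero_cons {x : ZMod ℓ} (hx : x ≠ 0) :
    NonzeroMod ℓ ![0, ((x.val : ℕ) : ℤ)] := by
  rintro ⟨-, h⟩
  apply hx
  have h1 : (ℓ : ℤ) ∣ ((x.val : ℕ) : ℤ) := by simpa using h
  have h2 := (ZMod.intCast_zmod_eq_zero_iff_dvd _ ℓ).mpr h1
  rwa [Int.cast_natCast, ZMod.natCast_zmod_val] at h2

/-- Transformation of `eisOne ℓ (0, val x)` under `γ ∈ Γ₀(ℓ)`. -/
theorem eisOne_gamma0 (hT : EisOneTransformStatement) {γ : SL(2, ℤ)} (hγ : γ ∈ Gamma0 ℓ)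
    {x : ZMod ℓ} (hx : x ≠ 0) (z : ℍ) :
    eisOne ℓ ![0, ((x.val : ℕ) : ℤ)] ((γ • z : ℍ) : ℂ)
      = denom γ z * eisOne ℓ ![0, (((x * ((γ 1 1 : ℤ) : ZMod ℓ)).val : ℕ) : ℤ)] (z : ℂ) := by
  have hℓ : ℓ.Prime := Fact.out
  have hd := lowerRight_ne_zero hγ
  have hxd : x * ((γ 1 1 : ℤ) : ZMod ℓ) ≠ 0 := mul_ne_zero hx hd
  obtain ⟨T1, -⟩ := hT ℓ hℓ.two_le _ (nonzeroMod_zero_cons hx)
  obtain ⟨-, T2⟩ := hT ℓ hℓ.two_le _ (nonzeroMod_zero_cons hxd)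
  rw [T1 z γ, vecMul_zero_cons]
  congr 1
  have hc : (ℓ : ℤ) ∣ γ 1 0 := (ZMod.intCast_zmod_eq_zero_iff_dvd _ ℓ).mp (Gamma0_mem.mp hγ)
  have hdiv1 : (ℓ : ℤ) ∣ ((x.val : ℕ) : ℤ) * γ 1 0 := Dvd.dvd.mul_left hc _
  have hdiv2 : (ℓ : ℤ) ∣ ((x.val : ℕ) : ℤ) * γ 1 1
      - (((x * ((γ 1 1 : ℤ) : ZMod ℓ)).val : ℕ) : ℤ) := by
    rw [← ZMod.intCast_zmod_eq_zero_iff_dvd]
    push_cast
    rw [ZMod.natCast_zmod_val, ZMod.natCast_zmod_val, sub_self]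
  obtain ⟨b₀, hb₀⟩ := hdiv1
  obtain ⟨b₁, hb₁⟩ := hdiv2
  have := T2 z ![b₀, b₁]
  rw [← this]
  congr 1
  ext i
  fin_cases i
  · simp only [Fin.zero_eta, Fin.isValue, Matrix.cons_val_zero, Pi.add_apply, Pi.smul_apply,
      smul_eq_mul]
    linarith
  · simp only [Fin.mk_one, Fin.isValue, Matrix.cons_val_one, Matrix.cons_val_fin_one,
      Pi.add_apply, Pi.smul_apply, smul_eq_mul]
    linarith

end Fermat.Agent.H4.DS
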