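import Mathlib
import Fermat.Agent.H6.DS.Interfaces

/-!
# P-DS / DS-2F2 (helper4): Gauss sum identities for the coefficients of `∑ ω(a) φ_a`

`ω` a nontrivial multiplicative character of `ZMod ℓ` with values in `ℂ`, `e = ZMod.stdAddChar`,
`τ = gaussSum ω e`.

* `sum_mul_stdAddChar_mul` : `∑ x, ω x * e (k * x) = ω⁻¹ k * τ` for every `k` (also `k = 0`).
* `sum_val_mul_stdAddChar` : `∑ k, val k * e (k * x) = ℓ / (e x - 1)` for `x ≠ 0`.
* `sum_mul_phiCoeff` : `∑ x, ω x * phiCoeff ℓ (val x) n = - 2 τ ∑_{k ∣ n} ω⁻¹ k` if `ω (-1) = -1`.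
* `sum_mul_phiConst` : `∑ x, ω x * phiConst ℓ (val x) = τ / ℓ * ∑ k, val k * ω⁻¹ k`.
-/

set_option autoImplicit false

namespace Fermat.Agent.H4.DS

open Fermat.Agent.H6.DS Finset
open scoped Real

section Geom

/-- `(y - 1) * ∑_{k < n} k y^k = n y^n - y ∑_{k < n} y^k`. -/
theorem sub_one_mul_sum_mul_pow {K : Type*} [CommRing K] (y : K) (n : ℕ) :
    (y - 1) * ∑ k ∈ range n, (k : K) * y ^ k = n * y ^ n - y * ∑ k ∈ range n, y ^ k := by
  induction n with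
  | zero => simp
  | succ n ih =>
    rw [sum_range_succ, sum_range_succ, mul_add, ih]
    push_cast
    ring

/-- `∑_{k < n} k y^k = n / (y - 1)` for an `n`-th root of unity `y ≠ 1`. -/
theorem sum_mul_pow_of_pow_eq_one {K : Type*} [Field K] {y : K} {n : ℕ} (hy : y ^ n = 1)
    (hy1 : y ≠ 1) : ∑ k ∈ range n, (k : K) * y ^ k = n / (y - 1) := by
  have h1 : y - 1 ≠ 0 := sub_ne_zero.mpr hy1
  have hgeom : ∑ k ∈ range n, y ^ k = 0 := by
    have := mul_geom_sum y n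
    rw [hy, sub_self] at this
    exact (mul_eq_zero.mp this).resolve_left h1
  have := sub_one_mul_sum_mul_pow y n
  rw [hgeom, hy, mul_zero, sub_zero, mul_one] at this
  rw [eq_div_iff h1, mul_comm]
  exact this

end Geom

variable {ℓ : ℕ} [Fact ℓ.Prime]

/-- `e (k * x) = e x ^ val k`. -/
theorem stdAddChar_mul_eq_pow (k x : ZMod ℓ) :
    ZMod.stdAddChar (k * x) = ZMod.stdAddChar x ^ k.val := by
  rw [← AddChar.map_nsmul_eq_pow, nsmul_eq_mul, ZMod.natCast_zmod_val]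

/-- `∑_{k : ZMod ℓ} val k * e (k x) = ℓ / (e x - 1)` for `x ≠ 0`. -/
theorem sum_val_mul_stdAddChar {x : ZMod ℓ} (hx : x ≠ 0) :
    ∑ k : ZMod ℓ, (k.val : ℂ) * ZMod.stdAddChar (k * x) = ℓ / (ZMod.stdAddChar x - 1) := by
  have h1 : ∑ k : ZMod ℓ, (k.val : ℂ) * ZMod.stdAddChar (k * x)
      = ∑ k ∈ range ℓ, (k : ℂ) * (ZMod.stdAddChar x) ^ k := by
    refine Finset.sum_nbij' (fun k => k.val) (fun i => (i : ZMod ℓ)) ?_ ?_ ?_ ?_ ?_
    · intro k _
      exact Finset.mem_range.mpr (ZMod.val_lt k)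
    · intro i _
      exact Finset.mem_univ _
    · intro k _
      exact ZMod.natCast_zmod_val k
    · intro i hi
      exact ZMod.val_natCast_of_lt (Finset.mem_range.mp hi)
    · intro k _
      rw [stdAddChar_mul_eq_pow]
  rw [h1]
  apply sum_mul_pow_of_pow_eq_one
  · rw [← AddChar.map_nsmul_eq_pow, nsmul_eq_mul, ZMod.natCast_self, zero_mul,
      AddChar.map_zero_eq_one]
  · intro h
    apply hx
    apply ZMod.injective_stdAddChar
    rw [h, AddChar.map_zero_eq_one]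

/-- The twisted Gauss sums: `∑ x, ω x * e (k x) = ω⁻¹ k * τ` for all `k`. -/
theorem sum_mul_stdAddChar_mul {ω : MulChar (ZMod ℓ) ℂ} (hω : ω ≠ 1) (k : ZMod ℓ) :
    ∑ x : ZMod ℓ, ω x * ZMod.stdAddChar (k * x) = ω⁻¹ k * gaussSum ω ZMod.stdAddChar := by
  by_cases hk : k = 0
  · subst hk
    have h0 : (ω⁻¹ : MulChar (ZMod ℓ) ℂ) 0 = 0 := MulChar.map_nonunit _ not_isUnit_zero
    simp only [zero_mul, AddChar.map_zero_eq_one, mul_one, h0]
    exact MulChar.sum_eq_zero_of_ne_one hω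
  · obtain ⟨u, rfl⟩ := (isUnit_iff_ne_zero.mpr hk)
    have := gaussSum_mulShift_eq ω ZMod.stdAddChar u
    simpa only [gaussSum, AddChar.mulShift_apply] using this

/-- `exp (2πi (a k) / ℓ) = e (k * a)` -/
theorem exp_eq_stdAddChar (a : ℤ) (k : ℕ) :
    Complex.exp (2 * Real.pi * Complex.I * (a * k) / ℓ)
      = ZMod.stdAddChar (N := ℓ) ((k : ZMod ℓ) * (a : ZMod ℓ)) := by
  have := ZMod.stdAddChar_coe (N := ℓ) (k * a)
  rw [Int.cast_mul, Int.cast_natCast] at this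
  rw [this]
  push_cast
  ring_nf

/-- `exp (-(2πi (a k) / ℓ)) = e (-k * a)` -/
theorem exp_neg_eq_stdAddChar (a : ℤ) (k : ℕ) :
    Complex.exp (-(2 * Real.pi * Complex.I * (a * k) / ℓ))
      = ZMod.stdAddChar (N := ℓ) ((-(k : ZMod ℓ)) * (a : ZMod ℓ)) := by
  have := ZMod.stdAddChar_coe (N := ℓ) (-(k * a))
  rw [Int.cast_neg, Int.cast_mul, Int.cast_natCast] at this
  rw [neg_mul, this]
  push_cast
  ring_nf

/-- `exp (2πi a / ℓ) = e a` -/
theorem exp_eq_stdAddChar_one (a : ℤ) :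
    Complex.exp (2 * Real.pi * Complex.I * a / ℓ) = ZMod.stdAddChar (N := ℓ) (a : ZMod ℓ) := by
  rw [ZMod.stdAddChar_coe]

theorem intCast_val (x : ZMod ℓ) : (((x.val : ℕ) : ℤ) : ZMod ℓ) = x := by
  rw [Int.cast_natCast, ZMod.natCast_zmod_val]

/-- `n`-th coefficient of `∑ ω(x) φ_x`. -/
theorem sum_mul_phiCoeff {ω : MulChar (ZMod ℓ) ℂ} (hω : ω ≠ 1) (hodd : ω (-1) = -1) (n : ℕ) :
    ∑ x : ZMod ℓ, ω x * phiCoeff ℓ ((x.val : ℕ) : ℤ) n
      = -(2 * gaussSum ω ZMod.stdAddChar * ∑ k ∈ n.divisors, ω⁻¹ (k : ZMod ℓ)) := by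
  have hinv : (ω⁻¹ : MulChar (ZMod ℓ) ℂ) (-1) = -1 := by
    rw [MulChar.inv_apply' , inv_neg, inv_one, hodd]
  have hneg : ∀ k : ZMod ℓ, (ω⁻¹ : MulChar (ZMod ℓ) ℂ) (-k) = -(ω⁻¹ : MulChar (ZMod ℓ) ℂ) k := by
    intro k
    rw [← neg_one_mul k, map_mul, hinv, neg_one_mul]
  have h1 : ∀ x : ZMod ℓ, ω x * phiCoeff ℓ ((x.val : ℕ) : ℤ) n
      = -∑ k ∈ n.divisors, (ω x * ZMod.stdAddChar ((k : ZMod ℓ) * x)
          - ω x * ZMod.stdAddChar ((-(k : ZMod ℓ)) * x)) := by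
    intro x
    unfold phiCoeff
    rw [mul_neg, Finset.mul_sum]
    congr 1
    refine Finset.sum_congr rfl fun k _ => ?_
    rw [exp_eq_stdAddChar, exp_neg_eq_stdAddChar, intCast_val, mul_sub]
  simp_rw [h1]
  rw [Finset.sum_neg_distrib, Finset.sum_comm]
  congr 1
  rw [Finset.mul_sum]
  refine Finset.sum_congr rfl fun k _ => ?_
  rw [Finset.sum_sub_distrib, sum_mul_stdAddChar_mul hω, sum_mul_stdAddChar_mul hω, hneg]
  ring

/-- constant term of `∑ ω(x) φ_x`. -/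
theorem sum_mul_phiConst {ω : MulChar (ZMod ℓ) ℂ} (hω : ω ≠ 1) :
    ∑ x : ZMod ℓ, ω x * phiConst ℓ ((x.val : ℕ) : ℤ)
      = gaussSum ω ZMod.stdAddChar / ℓ * ∑ k : ZMod ℓ, (k.val : ℂ) * ω⁻¹ k := by
  have hℓ : (ℓ : ℂ) ≠ 0 := Nat.cast_ne_zero.mpr (Fact.out : ℓ.Prime).ne_zero
  have h1 : ∀ x : ZMod ℓ, ω x * phiConst ℓ ((x.val : ℕ) : ℤ)
      = 1 / 2 * ω x + 1 / ℓ * ∑ k : ZMod ℓ, (k.val : ℂ) * (ω x * ZMod.stdAddChar (k * x)) := by
    intro x
    by_cases hx : x = 0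
    · subst hx
      have h0 : ω 0 = 0 := MulChar.map_nonunit _ not_isUnit_zero
      simp [h0]
    · unfold phiConst
      rw [exp_eq_stdAddChar_one, intCast_val]
      have := sum_val_mul_stdAddChar hx
      have h2 : ∑ k : ZMod ℓ, (k.val : ℂ) * (ω x * ZMod.stdAddChar (k * x))
          = ω x * ∑ k : ZMod ℓ, (k.val : ℂ) * ZMod.stdAddChar (k * x) := by
        rw [Finset.mul_sum]
        refine Finset.sum_congr rfl fun k _ => ?_
        ring
      rw [h2, this]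
      field_simp
  simp_rw [h1]
  rw [Finset.sum_add_distrib, ← Finset.mul_sum, MulChar.sum_eq_zero_of_ne_one hω, mul_zero,
    zero_add, ← Finset.mul_sum, Finset.sum_comm]
  have h3 : ∀ k : ZMod ℓ, ∑ x : ZMod ℓ, (k.val : ℂ) * (ω x * ZMod.stdAddChar (k * x))
      = (k.val : ℂ) * (ω⁻¹ k * gaussSum ω ZMod.stdAddChar) := by
    intro k
    rw [← Finset.mul_sum, sum_mul_stdAddChar_mul hω]
  simp_rw [h3]
  rw [Finset.mul_sum, Finset.mul_sum]
  refine Finset.sum_congr rfl fun k _ => ?_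
  field_simp

end Fermat.Agent.H4.DS
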