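import Mathlib

/-!
# P-DS / DS-2F2 (helper4): the Teichmüller character with respect to a residue map

`R` a domain, `κ` a field of characteristic `ℓ` (prime), `φ : R →+* κ`.

* `eq_one_of_map_eq_one` : `φ` is injective on `(ℓ - 1)`-th roots of unity.
* `isPrimitiveRoot_map` : primitive `(ℓ - 1)`-th roots of unity stay primitive.
* `exists_teichmuller_inv` : if `R` contains a primitive `(ℓ - 1)`-th root of unity there is a
  group homomorphism `Ψ : (ZMod ℓ)ˣ →* Rˣ` with `φ (Ψ u) * u = 1` (the inverse Teichmüller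
  character).
-/

set_option autoImplicit false

namespace Fermat.Agent.H4.DS

open Finset

section Inj

variable {R κ : Type*} [CommRing R] [IsDomain R] [Field κ] (ℓ : ℕ) [Fact ℓ.Prime] [CharP κ ℓ]
  (φ : R →+* κ)

/-- Reduction modulo a prime over `ℓ` is injective on `(ℓ - 1)`-th roots of unity. -/
theorem eq_one_of_map_eq_one {z : R} (hz : z ^ (ℓ - 1) = 1) (h : φ z = 1) : z = 1 := by
  have hℓ : ℓ.Prime := Fact.out
  have hpos : 0 < ℓ - 1 := by have := hℓ.two_le; omega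
  have hd : orderOf z ∣ ℓ - 1 := orderOf_dvd_of_pow_eq_one hz
  have hd0 : 0 < orderOf z := Nat.pos_of_dvd_of_pos hd hpos
  have hprim : IsPrimitiveRoot z (orderOf z) := IsPrimitiveRoot.orderOf z
  by_contra hne
  have h1 : orderOf z ≠ 1 := fun h1 => hne (orderOf_eq_one_iff.mp h1)
  obtain ⟨n, hn⟩ : ∃ n, orderOf z = n + 1 := ⟨orderOf z - 1, by omega⟩
  have hn1 : 1 ≤ n := by omega
  rw [hn] at hprim
  have hprod := hprim.prod_one_sub_pow_eq_order
  have hφ := congrArg φ hprod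
  rw [map_prod] at hφ
  have hzero : ∏ k ∈ range n, φ (1 - z ^ (k + 1)) = 0 := by
    apply Finset.prod_eq_zero (i := 0) (Finset.mem_range.mpr (by omega))
    simp [h]
  rw [hzero] at hφ
  have hcast : ((n + 1 : ℕ) : κ) = 0 := by
    have := hφ.symm
    simpa using this
  have hdvd : ℓ ∣ n + 1 := (CharP.cast_eq_zero_iff κ ℓ (n + 1)).mp hcast
  rw [← hn] at hdvd
  have hdvd' : ℓ ∣ ℓ - 1 := hdvd.trans hd
  have := Nat.le_of_dvd hpos hdvd'
  omega

/-- Primitive `(ℓ - 1)`-th roots of unity stay primitive under reduction. -/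
theorem isPrimitiveRoot_map {z : R} (hz : IsPrimitiveRoot z (ℓ - 1)) :
    IsPrimitiveRoot (φ z) (ℓ - 1) := by
  have hℓ : ℓ.Prime := Fact.out
  have hpos : 0 < ℓ - 1 := by have := hℓ.two_le; omega
  refine IsPrimitiveRoot.mk_of_lt _ hpos (by rw [← map_pow, hz.pow_eq_one, map_one]) ?_
  intro j hj hjlt hone
  have h1 : (z ^ j) ^ (ℓ - 1) = 1 := by rw [← pow_mul, mul_comm, pow_mul, hz.pow_eq_one, one_pow]
  have h2 : φ (z ^ j) = 1 := by rw [map_pow, hone]
  exact hz.pow_ne_one_of_pos_of_lt hj.ne' hjlt (eq_one_of_map_eq_one ℓ φ h1 h2)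

end Inj

section Exists

variable {R κ : Type*} [CommRing R] [IsDomain R] [Field κ] (ℓ : ℕ) [Fact ℓ.Prime] [CharP κ ℓ]
  (φ : R →+* κ)

/-- **Inverse Teichmüller character**: a group homomorphism `Ψ : (ZMod ℓ)ˣ →* Rˣ` with
`φ (Ψ u) * u = 1` in `κ`. -/
theorem exists_teichmuller_inv (h : ∃ z : R, IsPrimitiveRoot z (ℓ - 1)) :
    ∃ Ψ : (ZMod ℓ)ˣ →* Rˣ,
      ∀ u : (ZMod ℓ)ˣ, φ (Ψ u : R) * ZMod.castHom (dvd_refl ℓ) κ (u : ZMod ℓ) = 1 := by
  classical
  have hℓ : ℓ.Prime := Fact.out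
  have hpos : 0 < ℓ - 1 := by have := hℓ.two_le; omega
  have : NeZero (ℓ - 1) := ⟨hpos.ne'⟩
  obtain ⟨z₀, hz₀⟩ := h
  set c : ZMod ℓ →+* κ := ZMod.castHom (dvd_refl ℓ) κ with hc
  have hcinj : Function.Injective c := c.injective
  -- a generator of the unit group
  obtain ⟨g, hg⟩ := IsCyclic.exists_generator (α := (ZMod ℓ)ˣ)
  have hordg : orderOf g = ℓ - 1 := by
    rw [orderOf_eq_card_of_forall_mem_zpowers hg, Nat.card_eq_fintype_card, ZMod.card_units]
  have hgpow : c (g : ZMod ℓ) ^ (ℓ - 1) = 1 := by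
    rw [← map_pow, ← Units.val_pow_eq_pow_val, ← hordg, pow_orderOf_eq_one, Units.val_one, map_one]
  -- `φ z₀` is primitive, hence `c g` is a power of it
  have hprim : IsPrimitiveRoot (φ z₀) (ℓ - 1) := isPrimitiveRoot_map ℓ φ hz₀
  obtain ⟨i, -, hi⟩ := hprim.eq_pow_of_pow_eq_one hgpow
  -- the root of unity `z₁ = z₀ ^ i` reduces to `g`
  have hz₁ : (z₀ ^ i) ^ (ℓ - 1) = 1 := by
    rw [← pow_mul, mul_comm, pow_mul, hz₀.pow_eq_one, one_pow]
  have hφz₁ : φ (z₀ ^ i) = c (g : ZMod ℓ) := by rw [map_pow, hi]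
  -- as a unit
  have hunit : IsUnit (z₀ ^ i) := by
    refine IsUnit.of_pow_eq_one hz₁ hpos.ne'
  obtain ⟨Z₁, hZ₁⟩ := hunit
  have hZ₁pow : Z₁ ^ (ℓ - 1) = 1 := by
    ext; rw [Units.val_pow_eq_pow_val, hZ₁, hz₁, Units.val_one]
  have hord : orderOf (Z₁⁻¹) ∣ orderOf g := by
    rw [hordg]
    exact orderOf_dvd_of_pow_eq_one (by rw [inv_pow, hZ₁pow, inv_one])
  refine ⟨monoidHomOfForallMemZpowers hg hord, ?_⟩
  -- both sides are homomorphisms in `u`; check on the generator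
  set Ψ := monoidHomOfForallMemZpowers hg hord with hΨ
  have hgen : φ (Ψ g : R) * c (g : ZMod ℓ) = 1 := by
    rw [hΨ, monoidHomOfForallMemZpowers_apply_gen, ← hφz₁, ← hZ₁, ← map_mul, ← Units.val_mul,
      inv_mul_cancel, Units.val_one, map_one]
  let f : (ZMod ℓ)ˣ →* κ :=
    { toFun := fun u => φ (Ψ u : R) * c (u : ZMod ℓ)
      map_one' := by simp
      map_mul' := fun u v => by
        simp only [map_mul, Units.val_mul]
        ring }
  intro u
  obtain ⟨k, rfl⟩ := Subgroup.mem_zpowers_iff.mp (hg u)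
  have hfg : f g = 1 := hgen
  have h1 : f.toHomUnits g = 1 := by
    ext; rw [MonoidHom.coe_toHomUnits]; exact hfg
  have h2 : f.toHomUnits (g ^ k) = 1 := by rw [map_zpow, h1, one_zpow]
  have h3 : f (g ^ k) = 1 := by
    rw [← MonoidHom.coe_toHomUnits, h2, Units.val_one]
  exact h3

end Exists

end Fermat.Agent.H4.DS
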