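import Mathlib
import Fermat.Agent.H6.DS.Interfaces
import Fermat.Agent.H4.DS.Teich
import Fermat.Agent.H4.DS.GaussId
import Fermat.Agent.H4.DS.EisSlash

/-!
# P-DS / DS-2F2 (helper4): the weight-one Eisenstein series `G ≡ 1 mod φ`

`eisCong : PhiFormStatement → EisOneTransformStatement → EisCongStatement`.

`ψ = ω⁻¹` is the inverse Teichmüller character with respect to `φ`,
`G = -(ℓ / τ(ω)) ∑_x ω(x) φ_x`, with `a₀(G) = -∑_k k ψ(k)` and `a_n(G) = 2 ℓ ∑_{k ∣ n} ψ(k)`.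
-/

set_option autoImplicit false

namespace Fermat.Agent.H4.DS

open Fermat.Agent.H6.DS UpperHalfPlane CongruenceSubgroup ModularFormClass
open scoped Real MatrixGroups ModularForm

/-! ### `q`-coefficients are linear -/

theorem one_mem_strictPeriods_Gamma1 (ℓ : ℕ) :
    (1 : ℝ) ∈ ((Gamma1 ℓ : Subgroup SL(2, ℤ)) : Subgroup (GL (Fin 2) ℝ)).strictPeriods := by
  rw [strictPeriods_Gamma1]
  exact AddSubgroup.mem_zmultiples 1

/-- The `n`-th `q`-coefficient as a linear form on `M₁(Γ₁(ℓ))`. -/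
noncomputable def qCoeffLin (ℓ : ℕ) (n : ℕ) : ModularForm (Gamma1 ℓ) 1 →ₗ[ℂ] ℂ where
  toFun f := qCoeff f n
  map_add' f g := by
    unfold qCoeff
    rw [FunLike.coe_add, ModularForm.qExpansion_add one_pos (one_mem_strictPeriods_Gamma1 ℓ) f g,
      map_add]
  map_smul' c f := by
    unfold qCoeff
    rw [FunLike.coe_smul, ModularForm.qExpansion_smul one_pos (one_mem_strictPeriods_Gamma1 ℓ) c f]
    simp

theorem qCoeffLin_apply (ℓ n : ℕ) (f : ModularForm (Gamma1 ℓ) 1) :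
    qCoeffLin ℓ n f = qCoeff f n := rfl

/-! ### The inverse Teichmüller character as a Dirichlet character -/

section Teich

variable (ℓ : ℕ) [Fact ℓ.Prime] {κ : Type} [Field κ] [CharP κ ℓ]
  (φ : integralClosure ℤ ℂ →+* κ)

theorem exists_primitiveRoot_integralClosure :
    ∃ z : integralClosure ℤ ℂ, IsPrimitiveRoot z (ℓ - 1) := by
  have hℓ : ℓ.Prime := Fact.out
  have hpos : 0 < ℓ - 1 := by have := hℓ.two_le; omega
  have h := Complex.isPrimitiveRoot_exp (ℓ - 1) hpos.ne'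
  refine ⟨⟨_, h.isIntegral hpos⟩, ?_⟩
  exact IsPrimitiveRoot.of_map_of_injective (f := algebraMap (integralClosure ℤ ℂ) ℂ) h
    Subtype.coe_injective

/-- The inverse Teichmüller character `ψ`, with integral lifts of its values. -/
theorem exists_psi (hℓ2 : ℓ ≠ 2) :
    ∃ (ψ : MulChar (ZMod ℓ) ℂ) (Ψ₀ : ZMod ℓ → integralClosure ℤ ℂ),
      (∀ k, ((Ψ₀ k : integralClosure ℤ ℂ) : ℂ) = ψ k) ∧
      (∀ k : ZMod ℓ, k ≠ 0 → φ (Ψ₀ k) * ((k.val : ℕ) : κ) = 1) ∧
      ψ (-1) = -1 := by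
  classical
  have hℓ : ℓ.Prime := Fact.out
  obtain ⟨Ψ, hΨ⟩ := exists_teichmuller_inv ℓ φ (exists_primitiveRoot_integralClosure ℓ)
  let ι : integralClosure ℤ ℂ →* ℂ := (algebraMap (integralClosure ℤ ℂ) ℂ : _ →+* ℂ)
  let ψ : MulChar (ZMod ℓ) ℂ := MulChar.ofUnitHom ((Units.map ι).comp Ψ)
  have hψu : ∀ u : (ZMod ℓ)ˣ, ψ (u : ZMod ℓ) = ((Ψ u : integralClosure ℤ ℂ) : ℂ) := by
    intro u
    rw [MulChar.ofUnitHom_coe]
    rfl
  let Ψ₀ : ZMod ℓ → integralClosure ℤ ℂ := fun k =>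
    if h : IsUnit k then (Ψ h.unit : integralClosure ℤ ℂ) else 0
  have hΨ₀u : ∀ u : (ZMod ℓ)ˣ, Ψ₀ (u : ZMod ℓ) = (Ψ u : integralClosure ℤ ℂ) := by
    intro u
    have hu : IsUnit (u : ZMod ℓ) := u.isUnit
    simp only [Ψ₀, dif_pos hu]
    congr 2
    exact Units.ext rfl
  have hcast : ∀ k : ZMod ℓ, ZMod.castHom (dvd_refl ℓ) κ k = ((k.val : ℕ) : κ) := by
    intro k
    rw [ZMod.castHom_apply, ZMod.natCast_val]
  refine ⟨ψ, Ψ₀, ?_, ?_, ?_⟩
  · intro k
    by_cases hk : IsUnit k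
    · obtain ⟨u, rfl⟩ := hk
      rw [hΨ₀u, hψu]
    · simp only [Ψ₀, dif_neg hk]
      rw [MulChar.map_nonunit _ hk]
      rfl
  · intro k hk
    obtain ⟨u, rfl⟩ := isUnit_iff_ne_zero.mpr hk
    rw [hΨ₀u, ← hcast]
    exact hΨ u
  · -- `ψ (-1) = -1`
    have h1 := hΨ (-1)
    have hsq : (Ψ (-1) : integralClosure ℤ ℂ) * (Ψ (-1) : integralClosure ℤ ℂ) = 1 := by
      rw [← Units.val_mul, ← map_mul, neg_mul_neg, one_mul, map_one, Units.val_one]
    have hcases : (Ψ (-1) : integralClosure ℤ ℂ) = 1 ∨ (Ψ (-1) : integralClosure ℤ ℂ) = -1 :=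
      mul_self_eq_one_iff.mp hsq
    have hne : (Ψ (-1) : integralClosure ℤ ℂ) ≠ 1 := by
      intro h
      rw [h, map_one, one_mul, Units.val_neg, Units.val_one, map_neg, map_one] at h1
      -- `-1 = 1` in `κ` forces `ℓ = 2`
      have h2 : (2 : κ) = 0 := by
        have : (1 : κ) + 1 = 0 := by
          nth_rw 1 [← h1]; ring
        rw [← this]; norm_num
      have h3 : ((2 : ℕ) : κ) = 0 := by exact_mod_cast h2
      have h4 : ℓ ∣ 2 := (CharP.cast_eq_zero_iff κ ℓ 2).mp h3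
      exact hℓ2 ((Nat.prime_dvd_prime_iff_eq hℓ Nat.prime_two).mp h4)
    have hm1 : (Ψ (-1) : integralClosure ℤ ℂ) = -1 := hcases.resolve_left hne
    have := hψu (-1)
    rw [Units.val_neg, Units.val_one] at this
    rw [this, hm1]
    simp

end Teich

/-! ### The forms `φ_x` -/

section Forms

variable {ℓ : ℕ} [Fact ℓ.Prime]

theorem not_dvd_val {x : ZMod ℓ} (hx : x ≠ 0) : ¬ (ℓ : ℤ) ∣ ((x.val : ℕ) : ℤ) := by
  intro h
  apply hx
  have h2 := (ZMod.intCast_zmod_eq_zero_iff_dvd _ ℓ).mpr h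
  rwa [Int.cast_natCast, ZMod.natCast_zmod_val] at h2

/-- The family `x ↦ φ_x` of weight-one forms, extended by `0` at `x = 0`. -/
theorem exists_phi_family (hPhi : PhiFormStatement) :
    ∃ F : ZMod ℓ → ModularForm (Gamma1 ℓ) 1, F 0 = 0 ∧
      ∀ x : ZMod ℓ, x ≠ 0 →
        (∀ z : ℍ, F x z = eisOne ℓ ![0, ((x.val : ℕ) : ℤ)] (z : ℂ) / (2 * Real.pi * Complex.I)) ∧
        qCoeff (F x) 0 = phiConst ℓ ((x.val : ℕ) : ℤ) ∧
        ∀ n : ℕ, 1 ≤ n → qCoeff (F x) n = phiCoeff ℓ ((x.val : ℕ) : ℤ) n := by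
  classical
  have hℓ : ℓ.Prime := Fact.out
  have hex : ∀ x : ZMod ℓ, ∃ F : ModularForm (Gamma1 ℓ) 1, (x = 0 → F = 0) ∧
      (x ≠ 0 →
        (∀ z : ℍ, F z = eisOne ℓ ![0, ((x.val : ℕ) : ℤ)] (z : ℂ) / (2 * Real.pi * Complex.I)) ∧
        qCoeff F 0 = phiConst ℓ ((x.val : ℕ) : ℤ) ∧
        ∀ n : ℕ, 1 ≤ n → qCoeff F n = phiCoeff ℓ ((x.val : ℕ) : ℤ) n) := by
    intro x
    by_cases hx : x = 0
    · exact ⟨0, fun _ => rfl, fun h => absurd hx h⟩
    · obtain ⟨F, hF⟩ := hPhi ℓ hℓ.two_le _ (not_dvd_val hx)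
      exact ⟨F, fun h => absurd h hx, fun _ => hF⟩
  choose F hF0 hF using hex
  exact ⟨F, hF0 0 rfl, fun x hx => hF x hx⟩

end Forms

/-! ### Main theorem -/

theorem eisCong (hPhi : PhiFormStatement) (hT : EisOneTransformStatement) : EisCongStatement := by
  intro ℓ _ hℓ2 κ _ _ φ
  classical
  have hℓ : ℓ.Prime := Fact.out
  have hℓC : (ℓ : ℂ) ≠ 0 := Nat.cast_ne_zero.mpr hℓ.ne_zero
  obtain ⟨ψ, Ψ₀, hΨψ, hΨφ, hodd⟩ := exists_psi ℓ φ hℓ2
  obtain ⟨F, hF0, hF⟩ := exists_phi_family (ℓ := ℓ) hPhi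
  -- `ω = ψ⁻¹`
  set ω : MulChar (ZMod ℓ) ℂ := ψ⁻¹ with hω
  have hωinv : ω⁻¹ = ψ := inv_inv ψ
  have hψ1 : ψ ≠ 1 := by
    intro h
    rw [h, MulChar.one_apply (isUnit_one.neg)] at hodd
    norm_num at hodd
  have hω1 : ω ≠ 1 := by
    intro h
    apply hψ1
    rw [← hωinv, h, inv_one]
  have hωodd : ω (-1) = -1 := by
    rw [hω, MulChar.inv_apply', inv_neg, inv_one, hodd]
  set τ : ℂ := gaussSum ω ZMod.stdAddChar with hτ
  have hτ0 : τ ≠ 0 := by
    apply gaussSum_ne_zero_of_nontrivial _ hω1 (ZMod.isPrimitive_stdAddChar ℓ)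
    rw [ZMod.card]
    exact hℓC
  -- the form
  set G : ModularForm (Gamma1 ℓ) 1 := (-(ℓ / τ) : ℂ) • ∑ x : ZMod ℓ, ω x • F x with hG
  have hGcoeff : ∀ n : ℕ, qCoeff G n = -(ℓ / τ) * ∑ x : ZMod ℓ, ω x * qCoeff (F x) n := by
    intro n
    rw [← qCoeffLin_apply, hG, map_smul, map_sum, smul_eq_mul]
    congr 1
    refine Finset.sum_congr rfl fun x _ => ?_
    rw [map_smul, smul_eq_mul, qCoeffLin_apply]
  refine ⟨ψ, G, ?_, ?_, ?_, ?_⟩
  · -- values of `ψ`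
    intro a ha
    have hane : (a : ZMod ℓ) ≠ 0 := by
      intro h
      exact ha ((ZMod.natCast_eq_zero_iff a ℓ).mp h)
    refine ⟨Ψ₀ (a : ZMod ℓ), hΨψ _, ?_⟩
    have := hΨφ _ hane
    rwa [ZMod.natCast_val, ZMod.cast_natCast'] at this
  · -- nebentypus
    intro γ hγ
    have hd := lowerRight_ne_zero (ℓ := ℓ) hγ
    set d : ZMod ℓ := ((γ 1 1 : ℤ) : ZMod ℓ) with hd'
    have hFslash : ∀ (x : ZMod ℓ) (z : ℍ),
        F x (γ • z) * denom γ z ^ (-(1 : ℤ)) = F (x * d) z := by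
      intro x z
      by_cases hx : x = 0
      · subst hx
        rw [zero_mul, hF0]
        simp
      · have hxd : x * d ≠ 0 := mul_ne_zero hx hd
        rw [(hF x hx).1, (hF _ hxd).1, eisOne_gamma0 hT hγ hx z]
        have hden : denom γ z ≠ 0 := denom_ne_zero _ z
        rw [zpow_neg, zpow_one]
        field_simp
        rfl
    ext z
    rw [ModularForm.SL_slash_apply, Pi.smul_apply, smul_eq_mul]
    have hGz : ∀ w : ℍ, G w = -(ℓ / τ) * ∑ x : ZMod ℓ, ω x * F x w := by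
      intro w
      rw [hG]
      simp
    rw [hGz, hGz, mul_assoc, Finset.sum_mul]
    have h1 : ∑ x : ZMod ℓ, ω x * F x (γ • z) * denom γ z ^ (-(1 : ℤ))
        = ∑ x : ZMod ℓ, ω x * F (x * d) z := by
      refine Finset.sum_congr rfl fun x _ => ?_
      rw [mul_assoc, hFslash]
    rw [h1]
    have h2 : ∑ x : ZMod ℓ, ω x * F (x * d) z = ∑ y : ZMod ℓ, ω (y * d⁻¹) * F y z := by
      refine Fintype.sum_equiv (Equiv.mulRight₀ d hd) _ _ fun x => ?_
      simp only [Equiv.mulRight₀_apply]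
      rw [mul_inv_cancel_right₀ hd]
    rw [h2]
    have h3 : ∀ y : ZMod ℓ, ω (y * d⁻¹) * F y z = ψ d * (ω y * F y z) := by
      intro y
      rw [map_mul, hω, MulChar.inv_apply' ψ d⁻¹, inv_inv]
      ring
    simp_rw [h3]
    rw [← Finset.mul_sum]
    ring
  · -- constant term
    refine ⟨-∑ k : ZMod ℓ, ((k.val : ℕ) : integralClosure ℤ ℂ) * Ψ₀ k, ?_, ?_⟩
    · rw [hGcoeff 0]
      have h1 : ∑ x : ZMod ℓ, ω x * qCoeff (F x) 0
          = ∑ x : ZMod ℓ, ω x * phiConst ℓ ((x.val : ℕ) : ℤ) := by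
        refine Finset.sum_congr rfl fun x _ => ?_
        by_cases hx : x = 0
        · subst hx
          have h0 : ω 0 = 0 := MulChar.map_nonunit _ not_isUnit_zero
          rw [h0, zero_mul, zero_mul]
        · rw [(hF x hx).2.1]
      rw [h1, sum_mul_phiConst hω1, hωinv]
      push_cast
      simp_rw [hΨψ]
      field_simp
      rfl
    · rw [map_neg, map_sum]
      have h1 : ∀ k : ZMod ℓ, φ (((k.val : ℕ) : integralClosure ℤ ℂ) * Ψ₀ k)
          = if k = 0 then 0 else 1 := by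
        intro k
        by_cases hk : k = 0
        · subst hk
          simp
        · rw [if_neg hk, map_mul, map_natCast, mul_comm]
          exact hΨφ k hk
      simp_rw [h1]
      rw [Finset.sum_ite, Finset.sum_const_zero, zero_add, Finset.sum_const, nsmul_eq_mul, mul_one]
      have hcard : (Finset.univ.filter fun k : ZMod ℓ => ¬ k = 0).card = ℓ - 1 := by
        have h0 : (Finset.univ.filter fun k : ZMod ℓ => ¬ k = 0) = Finset.univ.erase 0 := by
          ext k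
          simp
        rw [h0, Finset.card_erase_of_mem (Finset.mem_univ _), Finset.card_univ, ZMod.card]
      rw [hcard, Nat.cast_sub hℓ.one_le, CharP.cast_eq_zero, Nat.cast_one]
      ring
  · -- higher coefficients
    intro n hn
    refine ⟨((2 * ℓ : ℕ) : integralClosure ℤ ℂ) * ∑ k ∈ n.divisors, Ψ₀ (k : ZMod ℓ), ?_, ?_⟩
    · rw [hGcoeff n]
      have h1 : ∑ x : ZMod ℓ, ω x * qCoeff (F x) n
          = ∑ x : ZMod ℓ, ω x * phiCoeff ℓ ((x.val : ℕ) : ℤ) n := by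
        refine Finset.sum_congr rfl fun x _ => ?_
        by_cases hx : x = 0
        · subst hx
          have h0 : ω 0 = 0 := MulChar.map_nonunit _ not_isUnit_zero
          rw [h0, zero_mul, zero_mul]
        · rw [(hF x hx).2.2 n hn]
      rw [h1, sum_mul_phiCoeff hω1 hωodd, hωinv]
      push_cast
      simp_rw [hΨψ]
      field_simp
      rw [hτ]
      have h2 : (((2 : integralClosure ℤ ℂ)) : ℂ) = 2 := rfl
      rw [h2]
      ring
    · rw [map_mul, map_natCast, Nat.cast_mul, CharP.cast_eq_zero κ ℓ, mul_zero, zero_mul]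

end Fermat.Agent.H4.DS
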