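import Mathlib
import Fermat.Agent.H6.DS.Interfaces

/-!
# P-DS / DS-1a-A1 (helper4): auxiliary lemmas at a general level `N`

* `phiCoeff_val`, `phiConst_val` : the coefficients of `φ_x` through `ZMod.stdAddChar`.
* `eisOne_gamma0_gen` : for `γ ∈ Γ₀(N)` with lower right entry `d`:
  `eisOne N (0, val x) (γ z) = j(γ, z) * eisOne N (0, val (x d)) z`.
* `exists_conj_exponent` : a ring endomorphism of `ℂ` acts on `N`-th roots of unity through a
  unit `c` of `ZMod N`.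
* `sum_mul_stdAddChar_eq_zero_imp` : Fourier inversion on `ZMod N`.
-/

set_option autoImplicit false

namespace Fermat.Agent.H4.DS

open Fermat.Agent.H6.DS UpperHalfPlane CongruenceSubgroup Finset
open scoped Real MatrixGroups ModularForm

variable {N : ℕ} [NeZero N]

/-! ### exponentials and the standard additive character -/

theorem expN_eq_stdAddChar (a : ℤ) (k : ℕ) :
    Complex.exp (2 * Real.pi * Complex.I * (a * k) / N)
      = ZMod.stdAddChar (N := N) ((k : ZMod N) * (a : ZMod N)) := by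
  have := ZMod.stdAddChar_coe (N := N) (k * a)
  rw [Int.cast_mul, Int.cast_natCast] at this
  rw [this]
  push_cast
  ring_nf

theorem expN_neg_eq_stdAddChar (a : ℤ) (k : ℕ) :
    Complex.exp (-(2 * Real.pi * Complex.I * (a * k) / N))
      = ZMod.stdAddChar (N := N) ((-(k : ZMod N)) * (a : ZMod N)) := by
  have := ZMod.stdAddChar_coe (N := N) (-(k * a))
  rw [Int.cast_neg, Int.cast_mul, Int.cast_natCast] at this
  rw [neg_mul, this]
  push_cast
  ring_nf

theorem expN_eq_stdAddChar_one (a : ℤ) :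
    Complex.exp (2 * Real.pi * Complex.I * a / N) = ZMod.stdAddChar (N := N) (a : ZMod N) := by
  rw [ZMod.stdAddChar_coe]

theorem intCast_valN (x : ZMod N) : (((x.val : ℕ) : ℤ) : ZMod N) = x := by
  rw [Int.cast_natCast, ZMod.natCast_zmod_val]

theorem phiCoeff_val (x : ZMod N) (n : ℕ) :
    phiCoeff N ((x.val : ℕ) : ℤ) n
      = -∑ k ∈ n.divisors, (ZMod.stdAddChar ((k : ZMod N) * x)
          - ZMod.stdAddChar ((-(k : ZMod N)) * x)) := by
  unfold phiCoeff
  congr 1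
  refine Finset.sum_congr rfl fun k _ => ?_
  rw [expN_eq_stdAddChar, expN_neg_eq_stdAddChar, intCast_valN]

theorem phiConst_val (x : ZMod N) :
    phiConst N ((x.val : ℕ) : ℤ) = 1 / 2 + 1 / (ZMod.stdAddChar x - 1) := by
  unfold phiConst
  rw [expN_eq_stdAddChar_one, intCast_valN]

/-! ### the action of `Γ₀(N)` -/

theorem vecMul_zero_cons_gen (a : ℤ) (γ : SL(2, ℤ)) :
    Matrix.vecMul ![0, a] (γ : Matrix (Fin 2) (Fin 2) ℤ) = ![a * γ 1 0, a * γ 1 1] := by
  ext i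
  fin_cases i <;> simp [Matrix.vecMul, dotProduct, Fin.sum_univ_two]

/-- The lower right entry of `γ ∈ Γ₀(N)` is a unit modulo `N`. -/
theorem lowerRight_isUnit {γ : SL(2, ℤ)} (hγ : γ ∈ Gamma0 N) :
    IsUnit (((γ 1 1 : ℤ)) : ZMod N) := by
  have hc : ((γ 1 0 : ℤ) : ZMod N) = 0 := Gamma0_mem.mp hγ
  have hdet : (γ : Matrix (Fin 2) (Fin 2) ℤ).det = 1 := γ.det_coe
  rw [Matrix.det_fin_two] at hdet
  have h1 : (((γ 0 0 * γ 1 1 - γ 0 1 * γ 1 0 : ℤ)) : ZMod N) = 1 := by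
    have := congrArg (Int.cast : ℤ → ZMod N) hdet
    simpa using this
  push_cast at h1
  rw [hc, mul_zero, sub_zero] at h1
  exact isUnit_iff_exists_inv'.mpr ⟨_, h1⟩

theorem nonzeroMod_zero_cons_gen {x : ZMod N} (hx : x ≠ 0) :
    NonzeroMod N ![0, ((x.val : ℕ) : ℤ)] := by
  rintro ⟨-, h⟩
  apply hx
  have h1 : (N : ℤ) ∣ ((x.val : ℕ) : ℤ) := by simpa using h
  have h2 := (ZMod.intCast_zmod_eq_zero_iff_dvd _ N).mpr h1
  rwa [Int.cast_natCast, ZMod.natCast_zmod_val] at h2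

theorem not_dvd_valN {x : ZMod N} (hx : x ≠ 0) : ¬ (N : ℤ) ∣ ((x.val : ℕ) : ℤ) := by
  intro h
  apply hx
  have h2 := (ZMod.intCast_zmod_eq_zero_iff_dvd _ N).mpr h
  rwa [Int.cast_natCast, ZMod.natCast_zmod_val] at h2

/-- Transformation of `eisOne N (0, val x)` under `γ ∈ Γ₀(N)`. -/
theorem eisOne_gamma0_gen (hT : EisOneTransformStatement) (hN : 2 ≤ N) {γ : SL(2, ℤ)}
    (hγ : γ ∈ Gamma0 N) {x : ZMod N} (hx : x ≠ 0)
    (hxd : x * ((γ 1 1 : ℤ) : ZMod N) ≠ 0) (z : ℍ) :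
    eisOne N ![0, ((x.val : ℕ) : ℤ)] ((γ • z : ℍ) : ℂ)
      = denom γ z * eisOne N ![0, (((x * ((γ 1 1 : ℤ) : ZMod N)).val : ℕ) : ℤ)] (z : ℂ) := by
  obtain ⟨T1, -⟩ := hT N hN _ (nonzeroMod_zero_cons_gen hx)
  obtain ⟨-, T2⟩ := hT N hN _ (nonzeroMod_zero_cons_gen hxd)
  rw [T1 z γ, vecMul_zero_cons_gen]
  congr 1
  have hc : (N : ℤ) ∣ γ 1 0 := (ZMod.intCast_zmod_eq_zero_iff_dvd _ N).mp (Gamma0_mem.mp hγ)
  have hdiv1 : (N : ℤ) ∣ ((x.val : ℕ) : ℤ) * γ 1 0 := Dvd.dvd.mul_left hc _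
  have hdiv2 : (N : ℤ) ∣ ((x.val : ℕ) : ℤ) * γ 1 1
      - (((x * ((γ 1 1 : ℤ) : ZMod N)).val : ℕ) : ℤ) := by
    rw [← ZMod.intCast_zmod_eq_zero_iff_dvd]
    push_cast
    rw [ZMod.natCast_zmod_val, ZMod.natCast_zmod_val, sub_self]
  obtain ⟨b₀, hb₀⟩ := hdiv1
  obtain ⟨b₁, hb₁⟩ := hdiv2
  have := T2 z ![b₀, b₁]
  rw [← this]
  congr 1
  ext i
  fin_cases i
  · simp only [Fin.zero_eta, Fin.isValue, Matrix.cons_val_zero, Pi.add_apply, Pi.smul_apply,
      smul_eq_mul]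
    linarith
  · simp only [Fin.mk_one, Fin.isValue, Matrix.cons_val_one, Matrix.cons_val_fin_one,
      Pi.add_apply, Pi.smul_apply, smul_eq_mul]
    linarith

/-! ### conjugation of roots of unity -/

theorem stdAddChar_one_isPrimitiveRoot :
    IsPrimitiveRoot (ZMod.stdAddChar (N := N) 1) N := by
  have := ZMod.stdAddChar_coe (N := N) 1
  simp only [Int.cast_one, mul_one] at this
  rw [this]
  exact Complex.isPrimitiveRoot_exp N (NeZero.ne N)

theorem stdAddChar_eq_pow (y : ZMod N) :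
    ZMod.stdAddChar y = ZMod.stdAddChar (N := N) 1 ^ y.val := by
  rw [← AddChar.map_nsmul_eq_pow, nsmul_eq_mul, mul_one, ZMod.natCast_zmod_val]

/-- A ring endomorphism of `ℂ` acts on the values of the standard additive character of `ZMod N`
through multiplication by a unit `c`. -/
theorem exists_conj_exponent (σ : ℂ →+* ℂ) :
    ∃ c : (ZMod N)ˣ, ∀ y : ZMod N,
      σ (ZMod.stdAddChar y) = ZMod.stdAddChar ((c : ZMod N) * y) := by
  have hζ := stdAddChar_one_isPrimitiveRoot (N := N)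
  have hσζ : IsPrimitiveRoot (σ (ZMod.stdAddChar (N := N) 1)) N :=
    hζ.map_of_injective σ.injective
  obtain ⟨i, -, hi⟩ := hζ.eq_pow_of_pow_eq_one hσζ.pow_eq_one
  have hcop : i.Coprime N := by
    rw [← hi] at hσζ
    exact (hζ.pow_iff_coprime (Nat.pos_of_ne_zero (NeZero.ne N)) i).mp hσζ
  refine ⟨ZMod.unitOfCoprime i hcop, fun y => ?_⟩
  rw [ZMod.coe_unitOfCoprime, stdAddChar_eq_pow y, map_pow, ← hi, ← pow_mul,
    ← AddChar.map_nsmul_eq_pow, nsmul_eq_mul, mul_one]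
  congr 1
  push_cast
  rw [ZMod.natCast_zmod_val]

/-! ### Fourier inversion -/

/-- If all twisted sums `∑ x, f x * e (t x)` vanish then `f = 0`. -/
theorem eq_zero_of_forall_sum_mul_stdAddChar_eq_zero (f : ZMod N → ℂ)
    (h : ∀ t : ZMod N, ∑ x : ZMod N, f x * ZMod.stdAddChar (t * x) = 0) (y : ZMod N) :
    f y = 0 := by
  classical
  have hN : (N : ℂ) ≠ 0 := Nat.cast_ne_zero.mpr (NeZero.ne N)
  have h1 : ∑ t : ZMod N, (∑ x : ZMod N, f x * ZMod.stdAddChar (t * x))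
      * ZMod.stdAddChar (t * (-y)) = 0 := by
    simp [h]
  have h2 : ∑ t : ZMod N, (∑ x : ZMod N, f x * ZMod.stdAddChar (t * x))
      * ZMod.stdAddChar (t * (-y))
      = ∑ x : ZMod N, f x * ∑ t : ZMod N, ZMod.stdAddChar (t * (x - y)) := by
    simp_rw [Finset.sum_mul, Finset.mul_sum]
    rw [Finset.sum_comm]
    refine Finset.sum_congr rfl fun x _ => Finset.sum_congr rfl fun t _ => ?_
    rw [mul_assoc, ← AddChar.map_add_eq_mul]
    congr 2
    ring
  rw [h2] at h1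
  have h3 : ∀ x : ZMod N, f x * ∑ t : ZMod N, ZMod.stdAddChar (t * (x - y))
      = if x = y then f y * N else 0 := by
    intro x
    rw [AddChar.sum_mulShift (x - y) (ZMod.isPrimitive_stdAddChar N)]
    by_cases hxy : x = y
    · subst hxy
      simp [ZMod.card]
    · have : x - y ≠ 0 := sub_ne_zero.mpr hxy
      simp [this, hxy]
  simp_rw [h3] at h1
  rw [Finset.sum_ite_eq' Finset.univ y, if_pos (Finset.mem_univ _)] at h1
  exact (mul_eq_zero.mp h1).resolve_right hN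

/-- If `∑_{k ∣ n} g k = 0` for all `n ≥ 1` then `g n = 0` for all `n ≥ 1`. -/
theorem eq_zero_of_forall_sum_divisors_eq_zero (g : ℕ → ℂ)
    (h : ∀ n : ℕ, 1 ≤ n → ∑ k ∈ n.divisors, g k = 0) : ∀ n : ℕ, 1 ≤ n → g n = 0 := by
  intro n
  induction n using Nat.strong_induction_on with
  | _ n ih =>
    intro hn
    have h1 := h n hn
    rw [← Nat.cons_self_properDivisors (by omega : n ≠ 0), Finset.sum_cons] at h1
    have h2 : ∑ k ∈ n.properDivisors, g k = 0 := by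
      refine Finset.sum_eq_zero fun k hk => ?_
      rw [Nat.mem_properDivisors] at hk
      exact ih k hk.2 (Nat.pos_of_dvd_of_pos hk.1 hn)
    rw [h2, add_zero] at h1
    exact h1

end Fermat.Agent.H4.DS
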