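import Mathlib
import Fermat.Agent.H6.DS.ConjInterfaces
import Fermat.Agent.H4.DS.EisCong
import Fermat.Agent.H4.DS.EisMultAux

/-!
# P-DS / DS-1a-A1 (helper4): the Eisenstein multiplier

`eisMultiplier : PhiFormStatement → EisOneTransformStatement → EisMultiplierStatement`.

For an odd Dirichlet character `χ` modulo `N`: `G = ∑_x χ(x) φ_x` is a nonzero modular form of
weight one on `Γ₁(N)` with nebentypus `χ⁻¹`, and for every ring endomorphism `σ` of `ℂ` the
conjugate `q`-expansion is that of `P = ∑_x σ(χ(x)) φ_{c x}`, where `σ(ζ_N) = ζ_N ^ c`.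
-/

set_option autoImplicit false

namespace Fermat.Agent.H4.DS

open Fermat.Agent.H6.DS Fermat.Agent.H20.DS UpperHalfPlane CongruenceSubgroup ModularFormClass
open scoped Real MatrixGroups ModularForm

section Family

variable {N : ℕ} [NeZero N]

/-- The family `x ↦ φ_x` of weight-one forms of level `N`, extended by `0` at `x = 0`. -/
theorem exists_phi_family_gen (hPhi : PhiFormStatement) (hN : 2 ≤ N) :
    ∃ F : ZMod N → ModularForm (Gamma1 N) 1, F 0 = 0 ∧
      ∀ x : ZMod N, x ≠ 0 →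
        (∀ z : ℍ, F x z = eisOne N ![0, ((x.val : ℕ) : ℤ)] (z : ℂ) / (2 * Real.pi * Complex.I)) ∧
        qCoeff (F x) 0 = phiConst N ((x.val : ℕ) : ℤ) ∧
        ∀ n : ℕ, 1 ≤ n → qCoeff (F x) n = phiCoeff N ((x.val : ℕ) : ℤ) n := by
  classical
  have hex : ∀ x : ZMod N, ∃ F : ModularForm (Gamma1 N) 1, (x = 0 → F = 0) ∧
      (x ≠ 0 →
        (∀ z : ℍ, F z = eisOne N ![0, ((x.val : ℕ) : ℤ)] (z : ℂ) / (2 * Real.pi * Complex.I)) ∧
        qCoeff F 0 = phiConst N ((x.val : ℕ) : ℤ) ∧
        ∀ n : ℕ, 1 ≤ n → qCoeff F n = phiCoeff N ((x.val : ℕ) : ℤ) n) := by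
    intro x
    by_cases hx : x = 0
    · exact ⟨0, fun _ => rfl, fun h => absurd hx h⟩
    · obtain ⟨F, hF⟩ := hPhi N hN _ (not_dvd_valN hx)
      exact ⟨F, fun h => absurd h hx, fun _ => hF⟩
  choose F hF0 hF using hex
  exact ⟨F, hF0 0 rfl, fun x hx => hF x hx⟩

end Family

/-! ### conjugation of the coefficients -/

section Conj

variable {N : ℕ} [NeZero N]

theorem map_phiCoeff (σ : ℂ →+* ℂ) (c : ZMod N)
    (hc : ∀ y : ZMod N, σ (ZMod.stdAddChar y) = ZMod.stdAddChar (c * y)) (x : ZMod N) (n : ℕ) :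
    σ (phiCoeff N ((x.val : ℕ) : ℤ) n) = phiCoeff N (((c * x).val : ℕ) : ℤ) n := by
  rw [phiCoeff_val, phiCoeff_val, map_neg, map_sum]
  congr 1
  refine Finset.sum_congr rfl fun k _ => ?_
  rw [map_sub, hc, hc]
  congr 2 <;> ring

theorem map_phiConst (σ : ℂ →+* ℂ) (c : ZMod N)
    (hc : ∀ y : ZMod N, σ (ZMod.stdAddChar y) = ZMod.stdAddChar (c * y)) (x : ZMod N) :
    σ (phiConst N ((x.val : ℕ) : ℤ)) = phiConst N (((c * x).val : ℕ) : ℤ) := by
  rw [phiConst_val, phiConst_val, map_add, map_div₀, map_div₀, map_sub, hc, map_one, map_ofNat]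

end Conj

/-! ### Main theorem -/

theorem eisMultiplier (hPhi : PhiFormStatement) (hT : EisOneTransformStatement) :
    EisMultiplierStatement := by
  intro N _ χ hodd
  classical
  -- `N ≥ 2`
  have hN : 2 ≤ N := by
    by_contra hlt
    have hN1 : N = 1 := by
      have := NeZero.ne N
      omega
    subst hN1
    have h1 : (-1 : ZMod 1) = 1 := Subsingleton.elim _ _
    rw [h1, map_one] at hodd
    norm_num at hodd
  have hfact : Fact (1 < N) := ⟨by omega⟩
  have hχ0 : ∀ x : ZMod N, ¬ IsUnit x → χ x = 0 := fun x hx => MulChar.map_nonunit χ hx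
  have hunit_ne : ∀ x : ZMod N, IsUnit x → x ≠ 0 := fun x hx => hx.ne_zero
  obtain ⟨F, hF0, hF⟩ := exists_phi_family_gen (N := N) hPhi hN
  -- the form
  set G : ModularForm (Gamma1 N) 1 := ∑ x : ZMod N, χ x • F x with hG
  have hGcoeff : ∀ n : ℕ, qCoeff G n = ∑ x : ZMod N, χ x * qCoeff (F x) n := by
    intro n
    rw [← qCoeffLin_apply, hG, map_sum]
    refine Finset.sum_congr rfl fun x _ => ?_
    rw [map_smul, smul_eq_mul, qCoeffLin_apply]
  have hGz : ∀ w : ℍ, G w = ∑ x : ZMod N, χ x * F x w := by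
    intro w
    rw [hG]
    simp
  refine ⟨G, ?_, ?_, ?_⟩
  · -- nonvanishing
    by_contra hall
    push Not at hall
    -- twisted sums
    set g : ZMod N → ℂ := fun t => ∑ x : ZMod N, χ x * ZMod.stdAddChar (t * x) with hg
    have hgdef : ∀ t : ZMod N, g t = ∑ x : ZMod N, χ x * ZMod.stdAddChar (t * x) := fun _ => rfl
    have hgneg : ∀ t : ZMod N, g (-t) = -g t := by
      intro t
      rw [hgdef, hgdef, ← Finset.sum_neg_distrib]
      refine Fintype.sum_equiv (Equiv.neg (ZMod N))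
        (fun x => χ x * ZMod.stdAddChar (-t * x))
        (fun x => -(χ x * ZMod.stdAddChar (t * x))) fun x => ?_
      have hx1 : χ ((Equiv.neg (ZMod N)) x) = -χ x := by
        rw [Equiv.neg_apply, ← neg_one_mul x, map_mul, hodd, neg_one_mul]
      have hx2 : t * ((Equiv.neg (ZMod N)) x) = -t * x := by
        rw [Equiv.neg_apply]
        ring
      show χ x * ZMod.stdAddChar (-t * x)
        = -(χ ((Equiv.neg (ZMod N)) x) * ZMod.stdAddChar (t * ((Equiv.neg (ZMod N)) x)))
      rw [hx1, hx2]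
      ring
    have hsum : ∀ n : ℕ, 1 ≤ n → ∑ k ∈ n.divisors, g (k : ZMod N) = 0 := by
      intro n hn
      have h1 := hall n
      rw [hGcoeff n] at h1
      have h2 : ∑ x : ZMod N, χ x * qCoeff (F x) n
          = ∑ x : ZMod N, χ x * phiCoeff N ((x.val : ℕ) : ℤ) n := by
        refine Finset.sum_congr rfl fun x _ => ?_
        by_cases hx : IsUnit x
        · rw [(hF x (hunit_ne x hx)).2.2 n hn]
        · rw [hχ0 x hx, zero_mul, zero_mul]
      rw [h2] at h1
      have h3 : ∑ x : ZMod N, χ x * phiCoeff N ((x.val : ℕ) : ℤ) n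
          = -(2 * ∑ k ∈ n.divisors, g (k : ZMod N)) := by
        simp_rw [phiCoeff_val, mul_neg, Finset.mul_sum, mul_sub]
        rw [Finset.sum_neg_distrib, Finset.sum_comm]
        congr 1
        refine Finset.sum_congr rfl fun k _ => ?_
        rw [Finset.sum_sub_distrib]
        have e1 : ∑ x : ZMod N, χ x * ZMod.stdAddChar ((k : ZMod N) * x) = g (k : ZMod N) := rfl
        have e2 : ∑ x : ZMod N, χ x * ZMod.stdAddChar (-(k : ZMod N) * x)
            = g (-(k : ZMod N)) := rfl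
        rw [e1, e2, hgneg]
        ring
      rw [h3] at h1
      have h4 : (2 : ℂ) * ∑ k ∈ n.divisors, g (k : ZMod N) = 0 := neg_eq_zero.mp h1
      exact (mul_eq_zero.mp h4).resolve_left two_ne_zero
    have hgn : ∀ n : ℕ, 1 ≤ n → g (n : ZMod N) = 0 :=
      eq_zero_of_forall_sum_divisors_eq_zero (fun n => g (n : ZMod N)) hsum
    have hgt : ∀ t : ZMod N, g t = 0 := by
      intro t
      have := hgn (t.val + N) (by have := NeZero.pos N; omega)
      rwa [Nat.cast_add, ZMod.natCast_self, add_zero, ZMod.natCast_zmod_val] at this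
    have hχ1 := eq_zero_of_forall_sum_mul_stdAddChar_eq_zero (fun x => χ x) hgt 1
    simp at hχ1
  · -- nebentypus
    intro γ hγ
    have hd := lowerRight_isUnit (N := N) hγ
    set d : ZMod N := ((γ 1 1 : ℤ) : ZMod N) with hd'
    obtain ⟨u, hu⟩ := hd
    have hFslash : ∀ (x : ZMod N) (z : ℍ), IsUnit x →
        F x (γ • z) * denom γ z ^ (-(1 : ℤ)) = F (x * d) z := by
      intro x z hx
      have hxd : x * d ≠ 0 := by
        apply hunit_ne
        rw [← hu]
        exact hx.mul u.isUnit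
      rw [(hF x (hunit_ne x hx)).1, (hF _ hxd).1,
        eisOne_gamma0_gen hT hN hγ (hunit_ne x hx) hxd z]
      have hden : denom γ z ≠ 0 := denom_ne_zero _ z
      rw [zpow_neg, zpow_one]
      field_simp
      rfl
    ext z
    rw [ModularForm.SL_slash_apply, Pi.smul_apply, smul_eq_mul, hGz, hGz, Finset.sum_mul]
    have h1 : ∑ x : ZMod N, χ x * F x (γ • z) * denom γ z ^ (-(1 : ℤ))
        = ∑ x : ZMod N, χ x * F (x * d) z := by
      refine Finset.sum_congr rfl fun x _ => ?_
      by_cases hx : IsUnit x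
      · rw [mul_assoc, hFslash x z hx]
      · rw [hχ0 x hx, zero_mul, zero_mul, zero_mul]
    rw [h1]
    have h2 : ∑ x : ZMod N, χ x * F (x * d) z
        = ∑ y : ZMod N, χ (y * (u⁻¹ : (ZMod N)ˣ)) * F y z := by
      refine Fintype.sum_equiv (Units.mulRight u) _ _ fun x => ?_
      simp only [Units.mulRight_apply]
      rw [mul_assoc, Units.mul_inv, mul_one, hu]
    rw [h2]
    have h3 : ∀ y : ZMod N, χ (y * (u⁻¹ : (ZMod N)ˣ)) * F y z
        = χ⁻¹ d * (χ y * F y z) := by
      intro y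
      rw [map_mul, MulChar.inv_apply, ← hu, Ring.inverse_unit]
      ring
    simp_rw [h3]
    rw [← Finset.mul_sum]
  · -- conjugates
    intro σ
    obtain ⟨c, hc⟩ := exists_conj_exponent (N := N) σ
    set P : ModularForm (Gamma1 N) 1 := ∑ x : ZMod N, σ (χ x) • F ((c : ZMod N) * x) with hP
    have hPcoeff : ∀ n : ℕ,
        qCoeff P n = ∑ x : ZMod N, σ (χ x) * qCoeff (F ((c : ZMod N) * x)) n := by
      intro n
      rw [← qCoeffLin_apply, hP, map_sum]
      refine Finset.sum_congr rfl fun x _ => ?_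
      rw [map_smul, smul_eq_mul, qCoeffLin_apply]
    refine ⟨P, fun n => ?_⟩
    rw [hPcoeff n, hGcoeff n, map_sum]
    refine Finset.sum_congr rfl fun x _ => ?_
    rw [map_mul]
    by_cases hx : IsUnit x
    · have hcx : (c : ZMod N) * x ≠ 0 := hunit_ne _ (c.isUnit.mul hx)
      congr 1
      rcases Nat.eq_zero_or_pos n with hn | hn
      · subst hn
        rw [(hF _ hcx).2.1, (hF x (hunit_ne x hx)).2.1, map_phiConst (N := N) σ (c : ZMod N) hc x]
      · rw [(hF _ hcx).2.2 n hn, (hF x (hunit_ne x hx)).2.2 n hn, map_phiCoeff (N := N) σ (c : ZMod N) hc x n]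
    · rw [hχ0 x hx, map_zero, zero_mul, zero_mul]

end Fermat.Agent.H4.DS
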